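/-
S20, package D (freeness), step (2): the regularity lemma.
If `A`, `B` are modular (resp. cusp) forms on `Γ₀(N)` of weights `k + 6`, `k + 4` with
`E₄ · A = E₆ · B`, then `A = E₆ · C` and `B = E₄ · C` for a modular (resp. cusp) form `C` of
weight `k` on `Γ₀(N)`.  (`E₄`, `E₆` have no common zero because `E₄³ - E₆² = 1728 Δ ≠ 0`.)
-/
import Fermat.Agent.S20.Defs

set_option autoImplicit false

open UpperHalfPlane ModularForm CongruenceSubgroup Matrix.SpecialLinearGroup Filter EisensteinSeries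
open scoped MatrixGroups ModularForm Manifold Topology

noncomputable section

namespace Fermat.Agent.S20.H33

/-- `E₄` and `E₆` have no common zero. -/
theorem E₄_ne_zero_or_E₆_ne_zero (τ : ℍ) : E₄ τ ≠ 0 ∨ E₆ τ ≠ 0 := by
  by_contra h
  rw [not_or, not_not, not_not] at h
  have h1 := ModularForm.discriminant_eq_E₄_cube_sub_E₆_sq τ
  rw [h.1, h.2] at h1
  exact ModularForm.discriminant_ne_zero τ (by simpa using h1)

/-- The value at `i∞` of the normalised level-one Eisenstein series is `1`. -/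
theorem valueAtInfty_E {k : ℕ} (hk : 3 ≤ k) (hk2 : Even k) :
    valueAtInfty (E hk : ℍ → ℂ) = 1 := by
  rw [← UpperHalfPlane.qExpansion_coeff_zero one_pos
    (ModularFormClass.analyticAt_cuspFunction_zero (E hk) one_pos one_mem_strictPeriods_SL)
    (SlashInvariantFormClass.periodic_comp_ofComplex (E hk) one_mem_strictPeriods_SL)]
  exact E_qExpansion_coeff_zero hk hk2

/-- The normalised level-one Eisenstein series tends to `1` at `i∞`. -/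
theorem tendsto_E_atImInfty {k : ℕ} (hk : 3 ≤ k) (hk2 : Even k) :
    Tendsto (E hk : ℍ → ℂ) atImInfty (𝓝 1) := by
  obtain ⟨c, hc, hO⟩ := ModularFormClass.exp_decay_sub_atImInfty' (E hk)
  have h0 : Tendsto (fun τ : ℍ => Real.exp (-c * τ.im)) atImInfty (𝓝 0) := by
    have h1 : Tendsto (fun τ : ℍ => c * τ.im) atImInfty atTop :=
      (tendsto_comap (f := UpperHalfPlane.im)).const_mul_atTop hc
    refine (Real.tendsto_exp_neg_atTop_nhds_zero.comp h1).congr fun τ => ?_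
    simp [neg_mul]
  have h2 := (hO.trans_tendsto h0).add_const (1 : ℂ)
  rw [valueAtInfty_E hk hk2] at h2
  simpa using h2

/-- The common quotient `A / E₆ = B / E₄`. -/
def quotFun (A B : ℍ → ℂ) (τ : ℍ) : ℂ := if E₆ τ = 0 then B τ / E₄ τ else A τ / E₆ τ

theorem quotFun_spec {A B : ℍ → ℂ} (h : ∀ τ, E₄ τ * A τ = E₆ τ * B τ) (τ : ℍ) :
    A τ = E₆ τ * quotFun A B τ ∧ B τ = E₄ τ * quotFun A B τ := by
  unfold quotFun
  split_ifs with h6
  · have h4 : E₄ τ ≠ 0 := (E₄_ne_zero_or_E₆_ne_zero τ).resolve_right (not_not.mpr h6)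
    have hA : A τ = 0 := by
      have := h τ
      rw [h6, zero_mul] at this
      exact (mul_eq_zero.mp this).resolve_left h4
    refine ⟨by rw [hA, h6, zero_mul], ?_⟩
    field_simp
  · refine ⟨by field_simp, ?_⟩
    have := h τ
    field_simp
    linear_combination (-1 : ℂ) * this

theorem quotFun_eq_div_E₆ {A B : ℍ → ℂ} {τ : ℍ} (h6 : E₆ τ ≠ 0) :
    quotFun A B τ = A τ / E₆ τ := if_neg h6

theorem quotFun_eq_div_E₄ {A B : ℍ → ℂ} (h : ∀ τ, E₄ τ * A τ = E₆ τ * B τ) {τ : ℍ}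
    (h4 : E₄ τ ≠ 0) : quotFun A B τ = B τ / E₄ τ := by
  rw [eq_div_iff h4, mul_comm]
  exact ((quotFun_spec h τ).2).symm

theorem mdiff_quotFun {A B : ℍ → ℂ} (hA : MDiff A) (hB : MDiff B)
    (h : ∀ τ, E₄ τ * A τ = E₆ τ * B τ) : MDiff (quotFun A B) := by
  intro τ
  rcases E₄_ne_zero_or_E₆_ne_zero τ with h4 | h6
  · have hc : ContinuousAt (E₄ : ℍ → ℂ) τ := (ModularFormClass.holo E₄ τ).continuousAt
    have hev : quotFun A B =ᶠ[𝓝 τ] (B / (E₄ : ℍ → ℂ)) := by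
      filter_upwards [hc.eventually_ne h4] with z hz
      exact quotFun_eq_div_E₄ h hz
    exact ((hB τ).div (ModularFormClass.holo E₄ τ) h4).congr_of_eventuallyEq hev
  · have hc : ContinuousAt (E₆ : ℍ → ℂ) τ := (ModularFormClass.holo E₆ τ).continuousAt
    have hev : quotFun A B =ᶠ[𝓝 τ] (A / (E₆ : ℍ → ℂ)) := by
      filter_upwards [hc.eventually_ne h6] with z hz
      exact quotFun_eq_div_E₆ hz
    exact ((hA τ).div (ModularFormClass.holo E₆ τ) h6).congr_of_eventuallyEq hev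

theorem E₄_slash (γ : SL(2, ℤ)) : (E₄ : ℍ → ℂ) ∣[(4 : ℤ)] γ = E₄ := by
  have hγ : (γ : GL (Fin 2) ℝ) ∈ 𝒮ℒ := ⟨γ, rfl⟩
  rw [SL_slash, SlashInvariantFormClass.slash_action_eq E₄ _ hγ]

theorem E₆_slash (γ : SL(2, ℤ)) : (E₆ : ℍ → ℂ) ∣[(6 : ℤ)] γ = E₆ := by
  have hγ : (γ : GL (Fin 2) ℝ) ∈ 𝒮ℒ := ⟨γ, rfl⟩
  rw [SL_slash, SlashInvariantFormClass.slash_action_eq E₆ _ hγ]

theorem E₆_mul_slash {k : ℤ} (C : ℍ → ℂ) (γ : SL(2, ℤ)) :
    ((E₆ : ℍ → ℂ) * C) ∣[k + 6] γ = (E₆ : ℍ → ℂ) * (C ∣[k] γ) := by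
  rw [add_comm, mul_slash_SL2, E₆_slash]

theorem E₄_mul_slash {k : ℤ} (C : ℍ → ℂ) (γ : SL(2, ℤ)) :
    ((E₄ : ℍ → ℂ) * C) ∣[k + 4] γ = (E₄ : ℍ → ℂ) * (C ∣[k] γ) := by
  rw [add_comm, mul_slash_SL2, E₄_slash]

theorem eq_E₆_mul_quotFun {A B : ℍ → ℂ} (h : ∀ τ, E₄ τ * A τ = E₆ τ * B τ) :
    A = (E₆ : ℍ → ℂ) * quotFun A B := funext fun τ => (quotFun_spec h τ).1

theorem eq_E₄_mul_quotFun {A B : ℍ → ℂ} (h : ∀ τ, E₄ τ * A τ = E₆ τ * B τ) :
    B = (E₄ : ℍ → ℂ) * quotFun A B := funext fun τ => (quotFun_spec h τ).2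

/-- The quotient inherits slash-invariance. -/
theorem quotFun_slash {k : ℤ} {A B : ℍ → ℂ} (h : ∀ τ, E₄ τ * A τ = E₆ τ * B τ) (γ : SL(2, ℤ))
    (hA : A ∣[k + 6] γ = A) (hB : B ∣[k + 4] γ = B) :
    quotFun A B ∣[k] γ = quotFun A B := by
  have h1 : (E₆ : ℍ → ℂ) * (quotFun A B ∣[k] γ) = (E₆ : ℍ → ℂ) * quotFun A B := by
    rw [← E₆_mul_slash, ← eq_E₆_mul_quotFun h, hA]
  have h2 : (E₄ : ℍ → ℂ) * (quotFun A B ∣[k] γ) = (E₄ : ℍ → ℂ) * quotFun A B := by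
    rw [← E₄_mul_slash, ← eq_E₄_mul_quotFun h, hB]
  funext τ
  rcases E₄_ne_zero_or_E₆_ne_zero τ with h4 | h6
  · exact mul_left_cancel₀ h4 (congrFun h2 τ)
  · exact mul_left_cancel₀ h6 (congrFun h1 τ)

/-- Eventually (towards `i∞`) `E₆` does not vanish, and its inverse tends to `1`. -/
theorem tendsto_inv_E₆ : Tendsto (fun τ : ℍ => (E₆ τ)⁻¹) atImInfty (𝓝 1) := by
  simpa using (tendsto_E_atImInfty (by norm_num : 3 ≤ 6) ⟨3, rfl⟩).inv₀ one_ne_zero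

theorem eventually_E₆_ne_zero : ∀ᶠ τ : ℍ in atImInfty, E₆ τ ≠ 0 :=
  (tendsto_E_atImInfty (by norm_num : 3 ≤ 6) ⟨3, rfl⟩).eventually_ne one_ne_zero

/-- If `a = E₆ · c` and `a` is bounded at `i∞`, so is `c`. -/
theorem isBoundedAtImInfty_of_E₆_mul {a c : ℍ → ℂ} (h : a = (E₆ : ℍ → ℂ) * c)
    (ha : IsBoundedAtImInfty a) : IsBoundedAtImInfty c := by
  have hinv : IsBoundedAtImInfty (fun τ : ℍ => (E₆ τ)⁻¹) := tendsto_inv_E₆.isBigO_one ℝ
  have hprod : IsBoundedAtImInfty (a * fun τ : ℍ => (E₆ τ)⁻¹) := ha.mul hinv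
  refine Asymptotics.IsBigO.congr' hprod ?_ EventuallyEq.rfl
  filter_upwards [eventually_E₆_ne_zero] with τ hτ
  rw [h]
  simp only [Pi.mul_apply]
  field_simp

/-- If `a = E₆ · c` and `a` vanishes at `i∞`, so does `c`. -/
theorem isZeroAtImInfty_of_E₆_mul {a c : ℍ → ℂ} (h : a = (E₆ : ℍ → ℂ) * c)
    (ha : IsZeroAtImInfty a) : IsZeroAtImInfty c := by
  have hprod : Tendsto (fun τ : ℍ => a τ * (E₆ τ)⁻¹) atImInfty (𝓝 (0 * 1)) :=
    Tendsto.mul ha tendsto_inv_E₆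
  rw [zero_mul] at hprod
  refine Tendsto.congr' ?_ hprod
  filter_upwards [eventually_E₆_ne_zero] with τ hτ
  rw [h]
  simp only [Pi.mul_apply]
  field_simp

variable {N : ℕ} [NeZero N] {k : ℤ}

/-- **Regularity of `(E₄, E₆)` on modular forms of level `Γ₀(N)`.** -/
theorem exists_div_E₄_E₆ (A : ModularForm (Γ0 N) (k + 6)) (B : ModularForm (Γ0 N) (k + 4))
    (h : ∀ τ, E₄ τ * A τ = E₆ τ * B τ) :
    ∃ C : ModularForm (Γ0 N) k, (∀ τ, A τ = E₆ τ * C τ) ∧ (∀ τ, B τ = E₄ τ * C τ) := by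
  refine ⟨{ toFun := quotFun A B
            slash_action_eq' := ?_
            holo' := mdiff_quotFun (ModularFormClass.holo A) (ModularFormClass.holo B) h
            bdd_at_cusps' := ?_ }, fun τ => (quotFun_spec h τ).1, fun τ => (quotFun_spec h τ).2⟩
  · rintro _ ⟨γ, hγ, rfl⟩
    exact quotFun_slash (k := k) h γ (slash_eq_of_mem_Gamma0 A hγ) (slash_eq_of_mem_Gamma0 B hγ)
  · intro c hc
    rw [Subgroup.IsArithmetic.isCusp_iff_isCusp_SL2Z] at hc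
    rw [OnePoint.isBoundedAt_iff_forall_SL2Z hc]
    intro γ _
    refine isBoundedAtImInfty_of_E₆_mul (a := (A : ℍ → ℂ) ∣[k + 6] γ) ?_
      (ModularFormClass.bdd_at_infty_slash A γ)
    rw [← E₆_mul_slash, ← eq_E₆_mul_quotFun h]

/-- **Regularity of `(E₄, E₆)` on cusp forms of level `Γ₀(N)`.** -/
theorem exists_div_E₄_E₆_cusp (A : CuspForm (Γ0 N) (k + 6)) (B : CuspForm (Γ0 N) (k + 4))
    (h : ∀ τ, E₄ τ * A τ = E₆ τ * B τ) :
    ∃ C : CuspForm (Γ0 N) k, (∀ τ, A τ = E₆ τ * C τ) ∧ (∀ τ, B τ = E₄ τ * C τ) := by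
  refine ⟨{ toFun := quotFun A B
            slash_action_eq' := ?_
            holo' := mdiff_quotFun (CuspFormClass.holo A) (CuspFormClass.holo B) h
            zero_at_cusps' := ?_ }, fun τ => (quotFun_spec h τ).1, fun τ => (quotFun_spec h τ).2⟩
  · rintro _ ⟨γ, hγ, rfl⟩
    exact quotFun_slash (k := k) h γ (slash_eq_of_mem_Gamma0 A hγ) (slash_eq_of_mem_Gamma0 B hγ)
  · intro c hc
    rw [Subgroup.IsArithmetic.isCusp_iff_isCusp_SL2Z] at hc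
    rw [OnePoint.isZeroAt_iff_forall_SL2Z hc]
    intro γ hγ
    refine isZeroAtImInfty_of_E₆_mul (a := (A : ℍ → ℂ) ∣[k + 6] γ) ?_ ?_
    · rw [← E₆_mul_slash, ← eq_E₆_mul_quotFun h]
    · have hc' : IsCusp c (Γ0 N) := (Subgroup.IsArithmetic.isCusp_iff_isCusp_SL2Z (Γ0 N)).mpr hc
      have := (OnePoint.isZeroAt_iff_forall_SL2Z hc).mp (A.zero_at_cusps' hc') γ hγ
      exact this

end Fermat.Agent.S20.H33
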